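/-
S18 / wave 4 (helper92): sub-leaf (CH4-glue) of helper6's chart package K2-CH (core 2, #1324/#1348).
Mathlib only, generic.

`R` a commutative ring, `F` a field over `R`, `x : F` nonzero.  `C₁`, `C₂` the integral closures
of `R[x]`, `R[x⁻¹]` in `F`.  Then `C₁[1/x] = C₂[x]` inside `F`, in the literal `hglue` shape of
`kummer_cech`:

  `∀ y : F, (∃ n : ℕ, x ^ n * y ∈ C₁) ↔ (∃ n : ℕ, x⁻¹ ^ n * y ∈ C₂)`.

Everything is stated for the predicate `IsIntegral (Algebra.adjoin R S) y`, for the `R`-subalgebra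
`icAdj R S` of `F` with that carrier, and for arbitrary subalgebras with that membership.
-/
import Mathlib

set_option autoImplicit false

open Polynomial

namespace Fermat.Agent.S18.H92

section Generic

variable {R F : Type*} [CommRing R] [Field F] [Algebra R F]

/-- Clearing denominators in `R[S, s⁻¹]`. -/
theorem exists_pow_mul_mem_adjoin_of_inv {S : Set F} {s : F} (hs : s ∈ S) (hs0 : s ≠ 0) {y : F}
    (hy : y ∈ Algebra.adjoin R (insert s⁻¹ S)) : ∃ n : ℕ, s ^ n * y ∈ Algebra.adjoin R S := by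
  have hsA : s ∈ Algebra.adjoin R S := Algebra.subset_adjoin hs
  induction hy using Algebra.adjoin_induction with
  | mem y hy =>
    rcases hy with rfl | hy
    · exact ⟨1, by rw [pow_one, mul_inv_cancel₀ hs0]; exact one_mem _⟩
    · exact ⟨0, by rw [pow_zero, one_mul]; exact Algebra.subset_adjoin hy⟩
  | algebraMap a => exact ⟨0, by rw [pow_zero, one_mul]; exact Subalgebra.algebraMap_mem _ a⟩
  | add y z _ _ hy hz =>
    obtain ⟨m, hm⟩ := hy
    obtain ⟨n, hn⟩ := hz
    refine ⟨m + n, ?_⟩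
    have : s ^ (m + n) * (y + z) = s ^ n * (s ^ m * y) + s ^ m * (s ^ n * z) := by ring
    rw [this]
    exact add_mem (mul_mem (pow_mem hsA n) hm) (mul_mem (pow_mem hsA m) hn)
  | mul y z _ _ hy hz =>
    obtain ⟨m, hm⟩ := hy
    obtain ⟨n, hn⟩ := hz
    refine ⟨m + n, ?_⟩
    have : s ^ (m + n) * (y * z) = (s ^ m * y) * (s ^ n * z) := by ring
    rw [this]
    exact mul_mem hm hn

/-- **Scaling lemma.**  If `y` is integral over `R[S, s⁻¹]` (`s ∈ S`, `s ≠ 0`) then `s ^ M * y` is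
integral over `R[S]` for some `M`. -/
theorem exists_pow_mul_isIntegral_adjoin {S : Set F} {s : F} (hs : s ∈ S) (hs0 : s ≠ 0) {y : F}
    (hy : IsIntegral (Algebra.adjoin R (insert s⁻¹ S)) y) :
    ∃ n : ℕ, IsIntegral (Algebra.adjoin R S) (s ^ n * y) := by
  classical
  obtain ⟨p, hmonic, hroot⟩ := hy
  have hcoeff : ∀ i, ∃ n : ℕ, s ^ n * (p.coeff i : F) ∈ Algebra.adjoin R S :=
    fun i => exists_pow_mul_mem_adjoin_of_inv hs hs0 (p.coeff i).2
  choose n hn using hcoeff
  set M : ℕ := ∑ i ∈ Finset.range (p.natDegree + 1), n i with hM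
  have hnM : ∀ i ≤ p.natDegree, n i ≤ M := fun i hi =>
    Finset.single_le_sum (f := n) (fun _ _ => Nat.zero_le _)
      (Finset.mem_range.mpr (Nat.lt_succ_of_le hi))
  set q : F[X] := (p.map (algebraMap (Algebra.adjoin R (insert s⁻¹ S)) F)).scaleRoots (s ^ M)
    with hq
  have hqmonic : q.Monic := (Polynomial.monic_scaleRoots_iff _).mpr (hmonic.map _)
  have hqroot : q.eval (s ^ M * y) = 0 := by
    rw [hq, Polynomial.scaleRoots_eval_mul, Polynomial.eval_map, hroot, mul_zero]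
  have hqcoeff : ∀ i, q.coeff i ∈ Algebra.adjoin R S := by
    intro i
    rw [hq, Polynomial.coeff_scaleRoots, Polynomial.coeff_map, hmonic.natDegree_map]
    by_cases hi : i < p.natDegree
    · have hle : n i ≤ M * (p.natDegree - i) := by
        calc n i ≤ M := hnM i hi.le
          _ = M * 1 := (mul_one M).symm
          _ ≤ M * (p.natDegree - i) := Nat.mul_le_mul_left M (Nat.one_le_iff_ne_zero.mpr (by omega))
      obtain ⟨k, hk⟩ := Nat.exists_eq_add_of_le hle
      have : (s ^ M) ^ (p.natDegree - i) = s ^ k * s ^ n i := by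
        rw [← pow_mul, hk, pow_add, mul_comm]
      rw [this, Subalgebra.algebraMap_def, Algebra.algebraMap_self_apply,
        show (p.coeff i : F) * (s ^ k * s ^ n i) = s ^ k * (s ^ n i * (p.coeff i : F)) by ring]
      exact mul_mem (pow_mem (Algebra.subset_adjoin hs) k) (hn i)
    · rcases (not_lt.mp hi).lt_or_eq with hlt | heq
      · rw [Polynomial.coeff_eq_zero_of_natDegree_lt hlt, map_zero, zero_mul]
        exact zero_mem _
      · rw [← heq, hmonic.coeff_natDegree, map_one, one_mul, Nat.sub_self, pow_zero]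
        exact one_mem _
  have hlifts : q ∈ Polynomial.lifts (algebraMap (Algebra.adjoin R S) F) :=
    (Polynomial.lifts_iff_coeff_lifts q).mpr fun i => ⟨⟨q.coeff i, hqcoeff i⟩, rfl⟩
  obtain ⟨q', hq'q, -, hq'monic⟩ := Polynomial.lifts_and_natDegree_eq_and_monic hlifts hqmonic
  refine ⟨M, ⟨q', hq'monic, ?_⟩⟩
  rw [Polynomial.eval₂_eq_eval_map, hq'q, hqroot]

/-- Integrality is monotone in the generating set. -/
theorem isIntegral_adjoin_mono {S S' : Set F} (h : S ⊆ S') {y : F}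
    (hy : IsIntegral (Algebra.adjoin R S) y) : IsIntegral (Algebra.adjoin R S') y :=
  hy.map_of_comp_eq
    (Subalgebra.inclusion (Algebra.adjoin_mono h)).toRingHom (RingHom.id F) (by ext; rfl)

/-- Elements of `R[S]` are integral over `R[S]`. -/
theorem isIntegral_adjoin_of_mem {S : Set F} {y : F} (hy : y ∈ Algebra.adjoin R S) :
    IsIntegral (Algebra.adjoin R S) y :=
  isIntegral_algebraMap (x := (⟨y, hy⟩ : Algebra.adjoin R S))

/-- One direction of the glueing. -/
theorem glue_aux {x : F} (hx : x ≠ 0) {y : F}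
    (h : ∃ n : ℕ, IsIntegral (Algebra.adjoin R ({x} : Set F)) (x ^ n * y)) :
    ∃ n : ℕ, IsIntegral (Algebra.adjoin R ({x⁻¹} : Set F)) (x⁻¹ ^ n * y) := by
  obtain ⟨n, hn⟩ := h
  -- `y = x⁻¹ ^ n * (x ^ n * y)` is integral over `R[x⁻¹, x]`
  have hsub : ({x} : Set F) ⊆ insert (x⁻¹)⁻¹ ({x⁻¹} : Set F) := by
    intro z hz
    rw [Set.mem_singleton_iff] at hz
    rw [hz, inv_inv]
    exact Set.mem_insert _ _
  have hmono : IsIntegral (Algebra.adjoin R (insert (x⁻¹)⁻¹ ({x⁻¹} : Set F))) (x ^ n * y) :=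
    isIntegral_adjoin_mono hsub hn
  have hxm : x⁻¹ ∈ Algebra.adjoin R (insert (x⁻¹)⁻¹ ({x⁻¹} : Set F)) :=
    Algebra.subset_adjoin (Set.mem_insert_of_mem _ (Set.mem_singleton _))
  have hxinv : IsIntegral (Algebra.adjoin R (insert (x⁻¹)⁻¹ ({x⁻¹} : Set F))) (x⁻¹ ^ n) :=
    isIntegral_adjoin_of_mem (pow_mem hxm n)
  have hy : y = x⁻¹ ^ n * (x ^ n * y) := by
    rw [← mul_assoc, ← mul_pow, inv_mul_cancel₀ hx, one_pow, one_mul]
  have h1 : IsIntegral (Algebra.adjoin R (insert (x⁻¹)⁻¹ ({x⁻¹} : Set F))) y := by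
    have := hxinv.mul hmono
    rwa [← hy] at this
  exact exists_pow_mul_isIntegral_adjoin (Set.mem_singleton _) (inv_ne_zero hx) h1

/-- **Glue, predicate form**: `C₁[1/x] = C₂[x]` for the integral closures `C₁`, `C₂` of `R[x]`,
`R[x⁻¹]` in `F`. -/
theorem glue_isIntegral {x : F} (hx : x ≠ 0) (y : F) :
    (∃ n : ℕ, IsIntegral (Algebra.adjoin R ({x} : Set F)) (x ^ n * y)) ↔
      (∃ n : ℕ, IsIntegral (Algebra.adjoin R ({x⁻¹} : Set F)) (x⁻¹ ^ n * y)) := by
  refine ⟨glue_aux hx, ?_⟩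
  have h2 := glue_aux (R := R) (x := x⁻¹) (inv_ne_zero hx) (y := y)
  rw [inv_inv] at h2
  exact h2

variable (R) in
/-- The integral closure of `R[S]` in `F`, as an `R`-subalgebra of `F`
(the shape of the Prelude's `chartAlg`, and of `C₁ C₂` in `kummer_cech`). -/
def icAdj (S : Set F) : Subalgebra R F where
  carrier := {y | IsIntegral (Algebra.adjoin R S) y}
  mul_mem' ha hb := ha.mul hb
  one_mem' := isIntegral_one
  add_mem' ha hb := ha.add hb
  zero_mem' := isIntegral_zero
  algebraMap_mem' a := by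
    have : IsIntegral (Algebra.adjoin R S)
        (algebraMap (Algebra.adjoin R S) F (algebraMap R (Algebra.adjoin R S) a)) :=
      isIntegral_algebraMap
    simpa [← IsScalarTower.algebraMap_apply] using this

theorem mem_icAdj_iff {S : Set F} {y : F} :
    y ∈ icAdj R S ↔ IsIntegral (Algebra.adjoin R S) y := Iff.rfl

theorem adjoin_le_icAdj (S : Set F) : Algebra.adjoin R S ≤ icAdj R S :=
  fun _ hy => isIntegral_adjoin_of_mem hy

theorem subset_icAdj (S : Set F) : S ⊆ (icAdj R S : Set F) :=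
  fun _ hy => adjoin_le_icAdj S (Algebra.subset_adjoin hy)

theorem self_mem_icAdj (x : F) : x ∈ icAdj R ({x} : Set F) := subset_icAdj _ rfl

theorem icAdj_mono {S S' : Set F} (h : S ⊆ S') : icAdj R S ≤ icAdj R S' :=
  fun _ hy => isIntegral_adjoin_mono h hy

/-- `icAdj R S` is integrally closed in `F`: an element of `F` integral over it lies in it. -/
theorem mem_icAdj_of_isIntegral {S : Set F} {y : F} (hy : IsIntegral (icAdj R S) y) :
    y ∈ icAdj R S := by
  -- `icAdj R S` is integral over `R[S]`, so is `y` (transitivity)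
  have hyB : IsIntegral (integralClosure (Algebra.adjoin R S) F) y :=
    hy.map_of_comp_eq
      (((icAdj R S).subtype : icAdj R S →+* F).codRestrict
        (integralClosure (Algebra.adjoin R S) F) (fun z => z.2))
      (RingHom.id F) (by ext; rfl)
  exact isIntegral_trans (A := integralClosure (Algebra.adjoin R S) F) y hyB

/-- **Glue, `hglue` shape of `kummer_cech`**, for `C₁ = icAdj R {x}`, `C₂ = icAdj R {x⁻¹}`. -/
theorem glue_icAdj {x : F} (hx : x ≠ 0) :
    ∀ y : F, (∃ n : ℕ, x ^ n * y ∈ icAdj R ({x} : Set F)) ↔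
      (∃ n : ℕ, x⁻¹ ^ n * y ∈ icAdj R ({x⁻¹} : Set F)) :=
  fun y => glue_isIntegral hx y

/-- **Glue, `hglue` shape of `kummer_cech`**, for any two subalgebras (over any base `A₀` acting
on `F`) whose members are exactly the elements integral over `R[x]`, resp. `R[x⁻¹]`. -/
theorem glue_of_mem_iff {A₀ : Type*} [CommSemiring A₀] [Algebra A₀ F] {x : F} (hx : x ≠ 0)
    (C₁ C₂ : Subalgebra A₀ F)
    (h₁ : ∀ y : F, y ∈ C₁ ↔ IsIntegral (Algebra.adjoin R ({x} : Set F)) y)
    (h₂ : ∀ y : F, y ∈ C₂ ↔ IsIntegral (Algebra.adjoin R ({x⁻¹} : Set F)) y) :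
    ∀ y : F, (∃ n : ℕ, x ^ n * y ∈ C₁) ↔ (∃ n : ℕ, x⁻¹ ^ n * y ∈ C₂) := by
  intro y
  simp only [h₁, h₂]
  exact glue_isIntegral hx y

end Generic

end Fermat.Agent.S18.H92
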