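/-
S18 / wave 4 (helper92): core 2, chart package, leaves `chart_glue` (K2-CH-D) and CH-E
(`chart_inter`, `chart_const`) of helper19's `Core2.lean` (reports #1324, #1411, split #1422).

Vocabulary: landed `Fermat.Agent.S18.H19.{ratSub, DSetup, chart}` (`H19/Core2Defs.lean`).

* `isIntegral_of_two_charts`: an element of a field integral over `R[x]` and over `R[x⁻¹]` is
  integral over `R` (valuative criterion; `Algebra.adjoin` form).
* `chart_glue`, `chart_inter`: VERBATIM the skeleton statements.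
* `chart_const_of_mem_nonunits`: the skeleton statement of `chart_const` with `hϖ : Irreducible ϖ`
  (missing in the skeleton, see review #1456) and with `chart_mem_nonunits` as a hypothesis.
-/
import Fermat.Agent.S18.H19.Core2Defs
import Fermat.Agent.S18.H47.ValInt
import Fermat.Agent.S18.H92.Glue

set_option autoImplicit false
set_option linter.unusedSectionVars false
set_option linter.style.haveILetI false

open Polynomial

namespace Fermat.Agent.S18.H92

open Fermat.Agent.S18.H19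

/-! ### Generic lemmas -/

section Generic

/-- Integrality only depends on the image of the base ring. -/
theorem isIntegralElem_of_range_subset {R S A : Type*} [CommRing R] [CommRing S] [CommRing A]
    (f : R →+* A) (g : S →+* A) (h : ∀ r : R, ∃ s : S, g s = f r) {a : A}
    (ha : f.IsIntegralElem a) : g.IsIntegralElem a := by
  obtain ⟨p, hp, hpa⟩ := ha
  have hlifts : p.map f ∈ Polynomial.lifts g :=
    (Polynomial.lifts_iff_coeff_lifts _).mpr fun i => by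
      rw [Polynomial.coeff_map]
      obtain ⟨s, hs⟩ := h (p.coeff i)
      exact ⟨s, hs⟩
  obtain ⟨q, hq, -, hqm⟩ := Polynomial.lifts_and_natDegree_eq_and_monic hlifts (hp.map f)
  refine ⟨q, hqm, ?_⟩
  rw [Polynomial.eval₂_eq_eval_map, hq, ← Polynomial.eval₂_eq_eval_map]
  exact hpa

variable {R F : Type*} [CommRing R] [Field F] [Algebra R F]

/-- Integral over `R[x]` (as a subalgebra) iff integral over `R[X]` through `X ↦ x`. -/
theorem isIntegral_adjoin_singleton_iff {x y : F} :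
    IsIntegral (Algebra.adjoin R ({x} : Set F)) y ↔
      ((Polynomial.aeval x : R[X] →ₐ[R] F) : R[X] →+* F).IsIntegralElem y := by
  constructor
  · intro h
    refine isIntegralElem_of_range_subset (algebraMap (Algebra.adjoin R ({x} : Set F)) F) _ ?_ h
    intro r
    have hr : (r : F) ∈ (Polynomial.aeval x : R[X] →ₐ[R] F).range := by
      rw [← Algebra.adjoin_singleton_eq_range_aeval]
      exact r.2
    obtain ⟨s, hs⟩ := hr
    exact ⟨s, hs⟩
  · intro h
    refine isIntegralElem_of_range_subset _ (algebraMap (Algebra.adjoin R ({x} : Set F)) F) ?_ h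
    intro r
    have hr : Polynomial.aeval x r ∈ Algebra.adjoin R ({x} : Set F) := by
      rw [Algebra.adjoin_singleton_eq_range_aeval]
      exact ⟨r, rfl⟩
    exact ⟨⟨_, hr⟩, rfl⟩

/-- **Global functions on the two charts are constants**: an element of a field integral over
`R[x]` and over `R[x⁻¹]` is integral over `R`. -/
theorem isIntegral_of_two_charts (x y : F)
    (h₁ : IsIntegral (Algebra.adjoin R ({x} : Set F)) y)
    (h₂ : IsIntegral (Algebra.adjoin R ({x⁻¹} : Set F)) y) : IsIntegral R y := by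
  refine Fermat.Agent.S18.H47.isIntegral_of_forall_valuationSubring y fun V hV => ?_
  have key : ∀ z : F, z ∈ V → ∀ r : Algebra.adjoin R ({z} : Set F),
      algebraMap (Algebra.adjoin R ({z} : Set F)) F r ∈ V := by
    intro z hz r
    have hle : Algebra.adjoin R ({z} : Set F) ≤
        { V.toSubring.toSubsemiring with algebraMap_mem' := hV } :=
      Algebra.adjoin_le (Set.singleton_subset_iff.mpr hz)
    exact hle r.2
  rcases V.mem_or_inv_mem x with hx | hx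
  · exact Fermat.Agent.S18.H47.mem_valuationSubring_of_isIntegral V (key x hx) h₁
  · exact Fermat.Agent.S18.H47.mem_valuationSubring_of_isIntegral V (key x⁻¹ hx) h₂

/-- **Reduction of integrality.**  `O` a ring with an injective map `ι` to `F` and a map `ρ` to
`κ`, compatible with the `R`-algebra structures through `f₀ : R →+* O`.  If `ι c` is integral
over `R[ι x]` then `ρ c` is integral over `R[ρ x]`. -/
theorem isIntegral_adjoin_singleton_map {O κ : Type*} [CommRing O] [Field κ] [Algebra R κ]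
    (ι : O →+* F) (hι : Function.Injective ι) (ρ : O →+* κ) (f₀ : R →+* O)
    (hιf : ∀ r, ι (f₀ r) = algebraMap R F r) (hρf : ∀ r, ρ (f₀ r) = algebraMap R κ r)
    (x c : O) (h : IsIntegral (Algebra.adjoin R ({ι x} : Set F)) (ι c)) :
    IsIntegral (Algebra.adjoin R ({ρ x} : Set κ)) (ρ c) := by
  rw [isIntegral_adjoin_singleton_iff] at h ⊢
  obtain ⟨p, hp, hpc⟩ := h
  have e₁ : ((Polynomial.aeval (ι x) : R[X] →ₐ[R] F) : R[X] →+* F) =
      ι.comp (Polynomial.eval₂RingHom f₀ x) := by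
    refine Polynomial.ringHom_ext (fun a => ?_) ?_
    · simp [hιf]
    · simp
  have e₂ : ((Polynomial.aeval (ρ x) : R[X] →ₐ[R] κ) : R[X] →+* κ) =
      ρ.comp (Polynomial.eval₂RingHom f₀ x) := by
    refine Polynomial.ringHom_ext (fun a => ?_) ?_
    · simp [hρf]
    · simp
  refine ⟨p, hp, ?_⟩
  rw [e₁, ← Polynomial.hom_eval₂] at hpc
  have h0 : p.eval₂ (Polynomial.eval₂RingHom f₀ x) c = 0 := hι (by rw [hpc, map_zero])
  rw [e₂, ← Polynomial.hom_eval₂, h0, map_zero]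

end Generic

/-! ### The chart leaves -/

section Chart

variable {A₀ : Type*} [CommRing A₀] [IsDomain A₀] [IsDiscreteValuationRing A₀] [CharZero A₀]
  (ϖ : A₀) (hϖ : Irreducible ϖ)
  {F₀ : Type*} [Field F₀] [Algebra A₀ F₀] [FaithfulSMul A₀ F₀]
  (O₀ : ValuationSubring F₀) (x : F₀)

/-- CH-D (generic): `C₁[1/x] = C₂[x]`.  VERBATIM `H19.chart_glue`. -/
theorem chart_glue (hx : x ≠ 0) :
    ∀ y : F₀, (∃ n : ℕ, x ^ n * y ∈ chart A₀ x) ↔ (∃ n : ℕ, x⁻¹ ^ n * y ∈ chart A₀ x⁻¹) :=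
  glue_of_mem_iff (R := A₀) hx (chart A₀ x) (chart A₀ x⁻¹) (fun _ => Iff.rfl) (fun _ => Iff.rfl)

/-- CH-E: `C₁ ∩ C₂ = A₀` (from `DSetup.const₀`).  VERBATIM `H19.chart_inter`. -/
theorem chart_inter (hS : DSetup A₀ O₀ x) :
    ∀ y ∈ chart A₀ x, y ∈ chart A₀ x⁻¹ → ∃ a : A₀, y = algebraMap A₀ F₀ a :=
  fun y h₁ h₂ => hS.const₀ y (isIntegral_of_two_charts x y h₁ h₂)

/-- `A₀ ⊆ O₀`. -/
theorem algebraMap_mem_of_dsetup (hS : DSetup A₀ O₀ x) (a : A₀) : algebraMap A₀ F₀ a ∈ O₀ := by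
  have := (hS.mem_iff a 1 one_ne_zero).mpr (one_dvd a)
  simpa using this

/-- `x` is a unit of `O₀`. -/
theorem self_mem_of_dsetup (hS : DSetup A₀ O₀ x) : x ∈ O₀ ∧ x⁻¹ ∈ O₀ := by
  have := hS.gauss Polynomial.X ⟨1, by simp⟩
  simpa using this

/-- The chart of `x` and the chart of `x⁻¹` lie in `O₀` (only `hS` for `x` is needed). -/
theorem chart_le_of_dsetup (hS : DSetup A₀ O₀ x) :
    (∀ c ∈ chart A₀ x, c ∈ O₀) ∧ (∀ c ∈ chart A₀ x⁻¹, c ∈ O₀) := by
  have key : ∀ z : F₀, z ∈ O₀ → ∀ c ∈ chart A₀ z, c ∈ O₀ := by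
    intro z hz c hc
    refine Fermat.Agent.S18.H47.mem_valuationSubring_of_isIntegral O₀ (fun r => ?_) hc
    have hle : Algebra.adjoin A₀ ({z} : Set F₀) ≤
        { O₀.toSubring.toSubsemiring with
          algebraMap_mem' := algebraMap_mem_of_dsetup O₀ x hS } :=
      Algebra.adjoin_le (Set.singleton_subset_iff.mpr hz)
    exact hle r.2
  exact ⟨key x (self_mem_of_dsetup O₀ x hS).1, key x⁻¹ (self_mem_of_dsetup O₀ x hS).2⟩

include hϖ in
/-- `ϖ` is a nonunit of `O₀`. -/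
theorem unif_mem_nonunits_of_dsetup (hS : DSetup A₀ O₀ x) :
    algebraMap A₀ F₀ ϖ ∈ O₀.nonunits := by
  rw [ValuationSubring.mem_nonunits_iff_exists_mem_maximalIdeal]
  refine ⟨algebraMap_mem_of_dsetup O₀ x hS ϖ, ?_⟩
  rw [IsLocalRing.mem_maximalIdeal, mem_nonunits_iff]
  intro hu
  obtain ⟨w, hw⟩ := isUnit_iff_exists_inv.mp hu
  have hw' : algebraMap A₀ F₀ ϖ * (w : F₀) = 1 := congrArg Subtype.val hw
  have hinv : (algebraMap A₀ F₀ ϖ)⁻¹ ∈ O₀ := by
    rw [← eq_inv_of_mul_eq_one_right hw']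
    exact w.2
  have h1 := (hS.mem_iff 1 ϖ hϖ.ne_zero).mp (by simpa using hinv)
  exact hϖ.not_isUnit (isUnit_of_dvd_one h1)

include hϖ in
/-- CH-E: `C̄₁ ∩ C̄₂ = k₀` (from `DSetup.const`): the statement of `H19.chart_const`, with
`hϖ : Irreducible ϖ` and `chart_mem_nonunits` (`hnu`) as a hypothesis. -/
theorem chart_const_of_mem_nonunits (hS : DSetup A₀ O₀ x)
    (hnu : ∀ c ∈ chart A₀ x, c ∈ O₀.nonunits → ∃ c' ∈ chart A₀ x, c = ϖ • c') :
    ∀ c₁ ∈ chart A₀ x, ∀ c₂ ∈ chart A₀ x⁻¹,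
      (∃ n : ℕ, ∃ c ∈ chart A₀ x, x ^ n * (c₁ - c₂) = ϖ • c) →
      ∃ a : A₀, ∃ c ∈ chart A₀ x, c₁ - algebraMap A₀ F₀ a = ϖ • c := by
  intro c₁ hc₁ c₂ hc₂ ⟨n, c, hc, hn⟩
  obtain ⟨hle, hle'⟩ := chart_le_of_dsetup O₀ x hS
  obtain ⟨hxO, hxO'⟩ := self_mem_of_dsetup O₀ x hS
  have hA : ∀ a : A₀, algebraMap A₀ F₀ a ∈ O₀ := algebraMap_mem_of_dsetup O₀ x hS
  have hc₁O : c₁ ∈ O₀ := hle c₁ hc₁
  have hc₂O : c₂ ∈ O₀ := hle' c₂ hc₂
  have hx0 : x ≠ 0 := fun h => hS.transc (by rw [h]; exact isAlgebraic_zero)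
  -- `v(x) = 1`
  have hvx : O₀.valuation x = 1 := by
    have h1 := (ValuationSubring.valuation_le_one_iff O₀ x).mpr hxO
    have h2 := (ValuationSubring.valuation_le_one_iff O₀ x⁻¹).mpr hxO'
    rw [map_inv₀] at h2
    have h3 : O₀.valuation x ≠ 0 := (Valuation.ne_zero_iff _).mpr hx0
    exact le_antisymm h1 ((inv_le_one₀ (zero_lt_iff.mpr h3)).mp h2)
  -- `c₁ - c₂ ∈ 𝔪`
  have hdiff : c₁ - c₂ ∈ O₀.nonunits := by
    rw [ValuationSubring.mem_nonunits_iff]
    have h1 : O₀.valuation (x ^ n * (c₁ - c₂)) < 1 := by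
      rw [hn, Algebra.smul_def, map_mul]
      exact mul_lt_one_of_lt_of_le
        ((ValuationSubring.mem_nonunits_iff _).mp (unif_mem_nonunits_of_dsetup ϖ hϖ O₀ x hS))
        ((ValuationSubring.valuation_le_one_iff _ _).mpr (hle c hc))
    rwa [map_mul, map_pow, hvx, one_pow, one_mul] at h1
  -- the residue field
  let κ := IsLocalRing.ResidueField ↥O₀
  let ρ : ↥O₀ →+* κ := IsLocalRing.residue ↥O₀
  let f₀ : A₀ →+* ↥O₀ := (algebraMap A₀ F₀).codRestrict O₀.toSubring hA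
  letI : Algebra A₀ κ := (ρ.comp f₀).toAlgebra
  have hρ : ρ ⟨c₁, hc₁O⟩ = ρ ⟨c₂, hc₂O⟩ := by
    rw [← sub_eq_zero, ← map_sub]
    refine (IsLocalRing.residue_eq_zero_iff _).mpr ?_
    obtain ⟨h, hm⟩ := (ValuationSubring.mem_nonunits_iff_exists_mem_maximalIdeal).mp hdiff
    exact hm
  have hρx : ρ ⟨x⁻¹, hxO'⟩ = (ρ ⟨x, hxO⟩)⁻¹ := by
    refine eq_inv_of_mul_eq_one_right ?_
    rw [← map_mul, ← map_one ρ]
    congr 1
    exact Subtype.ext (mul_inv_cancel₀ hx0)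
  -- integrality of the common residue class over both reduced charts
  have hint₁ : IsIntegral (Algebra.adjoin A₀ ({ρ ⟨x, hxO⟩} : Set κ)) (ρ ⟨c₁, hc₁O⟩) :=
    isIntegral_adjoin_singleton_map (R := A₀) (F := F₀) O₀.subtype Subtype.val_injective ρ f₀
      (fun _ => rfl) (fun _ => rfl) ⟨x, hxO⟩ ⟨c₁, hc₁O⟩ hc₁
  have hint₂ : IsIntegral (Algebra.adjoin A₀ ({(ρ ⟨x, hxO⟩)⁻¹} : Set κ)) (ρ ⟨c₁, hc₁O⟩) := by
    rw [hρ, ← hρx]
    exact isIntegral_adjoin_singleton_map (R := A₀) (F := F₀) O₀.subtype Subtype.val_injective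
      ρ f₀ (fun _ => rfl) (fun _ => rfl) ⟨x⁻¹, hxO'⟩ ⟨c₂, hc₂O⟩ hc₂
  obtain ⟨P, hP, hPc⟩ := isIntegral_of_two_charts (R := A₀) _ _ hint₁ hint₂
  -- lift the monic equation
  have hPO : Polynomial.aeval c₁ P ∈ O₀.nonunits := by
    rw [ValuationSubring.mem_nonunits_iff_exists_mem_maximalIdeal]
    have e : ((P.eval₂ f₀ (⟨c₁, hc₁O⟩ : ↥O₀) : ↥O₀) : F₀) = Polynomial.aeval c₁ P := by
      have := Polynomial.hom_eval₂ P f₀ O₀.subtype (⟨c₁, hc₁O⟩ : ↥O₀)
      rw [Polynomial.aeval_def]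
      exact this
    have hmem : P.eval₂ f₀ (⟨c₁, hc₁O⟩ : ↥O₀) ∈ IsLocalRing.maximalIdeal ↥O₀ := by
      refine (IsLocalRing.residue_eq_zero_iff _).mp ?_
      have := Polynomial.hom_eval₂ P f₀ ρ (⟨c₁, hc₁O⟩ : ↥O₀)
      rw [show IsLocalRing.residue ↥O₀ = ρ from rfl, this]
      exact hPc
    refine ⟨e ▸ (P.eval₂ f₀ (⟨c₁, hc₁O⟩ : ↥O₀)).2, ?_⟩
    convert hmem using 1
    exact Subtype.ext e.symm
  obtain ⟨a, ha⟩ := hS.const c₁ hc₁O ⟨P, hP, hPO⟩
  obtain ⟨c', hc', hc'eq⟩ := hnu (c₁ - algebraMap A₀ F₀ a)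
    (sub_mem hc₁ ((chart A₀ x).algebraMap_mem a)) ha
  exact ⟨a, c', hc', hc'eq⟩

end Chart

end Fermat.Agent.S18.H92
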